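/-
S56 block (F), sub-block F-C (ORDINARY CASE), file 1: "peu ramifie" cocycles `ψ : I → F_p(ω) = μ_p`.

`P : Plc`, `p = P.ℓ`, `I = P.ine`, `ζ` a primitive `p`-th root of unity, `om P s ∈ ZMod p` the cyclotomic character.
We use the API of F-B (`LF`) with `e = 1`, `lam = -p` (`lam0 P`), so `G0 = I`, `KK = Qb^I`; only the level `j = 1` occurs.
 * `Peu P ζ ψ`   : `ψ` is the Kummer cocycle (on `I`) of some `u` with `p ∣ v(u)`;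
 * `PLC P ζ ψ a` : `ψ` is the Kummer cocycle of some `u` with `u y^p = 1 + t (-p) + o(p)`, `rs t = a`.
-/
import Fermat.Agent.S56.F.LF.All
import Fermat.Agent.S56.Lq.CycP2
import Fermat.Agent.PT.R.Char

set_option autoImplicit false

open Fermat.Agent.PT.Local IntermediateField ExtCitation
open Fermat.Agent.S56.F.LF

noncomputable section

namespace Fermat.Agent.S56.F.OrdC

variable (P : Plc)

instance factPrime : Fact P.ℓ.Prime := ⟨P.prime⟩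

/-- the mod `p` cyclotomic character, with values in `ZMod p`. -/
def om (s : GQ) : ZMod P.ℓ := ((cycloChar P.ℓ s : (ZMod P.ℓ)ˣ) : ZMod P.ℓ)

theorem om_mul (s t : GQ) : om P (s * t) = om P s * om P t := by
  simp [om]

theorem om_one : om P 1 = 1 := by
  simp [om]

theorem om_ne_zero (s : GQ) : om P s ≠ 0 := Units.ne_zero _

theorem om_inv (s : GQ) : om P s⁻¹ = (om P s)⁻¹ := by
  rw [om, om, map_inv, Units.val_inv_eq_inv_val]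

theorem map_root {z : Qb} (hz : z ^ P.ℓ = 1) (s : GQ) : s z = z ^ (om P s).val :=
  Fermat.Agent.PT.apply_eq_pow_cycloChar s hz

theorem exists_ine_om_ne_one (hodd : P.ℓ ≠ 2) : ∃ s ∈ P.ine, om P s ≠ 1 := by
  obtain ⟨s, hs, h⟩ := Fermat.Agent.S56.Lq.exists_ine_cycloChar_ne_one hodd P rfl
  exact ⟨s, hs, fun h1 => h (Units.ext h1)⟩

/-- `lam = -p`. -/
abbrev lam0 : Qb := -(P.ℓ : Qb)

theorem isLam0 : IsLam P 1 (lam0 P) :=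
  ⟨fun h => P.prime.one_lt.ne' (Nat.dvd_one.1 h), pow_one _⟩

theorem map_lam0 (s : GQ) : s (lam0 P) = lam0 P := by
  simp [lam0]

theorem G0_lam0 : G0 P (lam0 P) = P.ine := by
  ext s
  rw [mem_stab]
  exact ⟨fun h => h.1, fun h => ⟨h, map_lam0 P s⟩⟩

theorem KK_lam0 : KK P (lam0 P) = fixedField P.ine := by
  rw [KK, G0_lam0]

theorem isLevel0 : IsLevel P 1 1 := by
  have := P.prime.two_le
  exact ⟨one_pos, fun h => P.prime.one_lt.ne' (Nat.dvd_one.1 h), by omega⟩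

theorem v_lam0 : P.v (lam0 P) = P.v (P.ℓ : Qb) := by
  rw [lam0, Valuation.map_neg]

variable {P}

/-- the Kummer element is fixed by `Γ`. -/
theorem isKum_mem {p : ℕ} {Γ : Subgroup GQ} {ζ : Qb} (hζ : ζ ^ p = 1) {c : GQ → ZMod p} {u : Qb}
    (h : IsKum Γ ζ c u) : u ∈ fixedField Γ := by
  obtain ⟨β, -, rfl, hβ⟩ := h
  rw [IntermediateField.mem_fixedField_iff]
  intro s hs
  rw [map_pow, hβ s hs, mul_pow, ← pow_mul, mul_comm _ p, pow_mul, hζ, one_pow, one_mul]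

theorem isKum_ne_zero {p : ℕ} {Γ : Subgroup GQ} {ζ : Qb} {c : GQ → ZMod p} {u : Qb}
    (h : IsKum Γ ζ c u) : u ≠ 0 := by
  obtain ⟨β, h0, rfl, -⟩ := h
  exact pow_ne_zero _ h0

theorem isKum_congr {p : ℕ} {Γ : Subgroup GQ} {ζ : Qb} {c c' : GQ → ZMod p} {u : Qb}
    (h : IsKum Γ ζ c u) (hc : ∀ s ∈ Γ, c s = c' s) : IsKum Γ ζ c' u := by
  obtain ⟨β, h0, h1, h2⟩ := h
  exact ⟨β, h0, h1, fun s hs => by rw [← hc s hs]; exact h2 s hs⟩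

variable (P)

/-- `ψ : I → μ_p` is "peu ramifie". -/
def Peu (ζ : Qb) (ψ : GQ → ZMod P.ℓ) : Prop :=
  ∃ u : Qb, IsKum P.ine ζ ψ u ∧ ∃ n : ℤ, P.v u = P.v (P.ℓ : Qb) ^ ((P.ℓ : ℤ) * n)

/-- `ψ : I → μ_p` is "peu ramifie" with leading coefficient `a`. -/
def PLC (ζ : Qb) (ψ : GQ → ZMod P.ℓ) (a : FF P) : Prop :=
  ∃ u : Qb, IsKum P.ine ζ ψ u ∧ LC P (lam0 P) 1 u a

variable {P} {ζ : Qb} {ψ ψ' : GQ → ZMod P.ℓ} {a a' : FF P}

/-! ### `Peu` -/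

theorem Peu.congr (h : Peu P ζ ψ) (hc : ∀ s ∈ P.ine, ψ s = ψ' s) : Peu P ζ ψ' := by
  obtain ⟨u, h1, h2⟩ := h
  exact ⟨u, isKum_congr h1 hc, h2⟩

theorem peu_zero : Peu P ζ 0 :=
  ⟨1, ⟨1, one_ne_zero, one_pow _, fun s _ => by simp⟩, 0, by simp⟩

theorem Peu.add (hζ : IsPrimitiveRoot ζ P.ℓ) (h : Peu P ζ ψ) (h' : Peu P ζ ψ') : Peu P ζ (ψ + ψ') := by
  obtain ⟨u, h1, n, h2⟩ := h
  obtain ⟨u', h1', n', h2'⟩ := h'
  refine ⟨u * u', IsKum.mul hζ h1 h1', n + n', ?_⟩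
  have h0 : P.v (P.ℓ : Qb) ≠ 0 := by
    rw [Ne, map_eq_zero]
    exact_mod_cast P.prime.ne_zero
  rw [map_mul, h2, h2', mul_add, zpow_add₀ h0]

/-- `ζ ^ a.val = ζ ^ b.val ↔ a = b`. -/
theorem zeta_pow_val_inj (hζ : IsPrimitiveRoot ζ P.ℓ) {x y : ZMod P.ℓ} (h : ζ ^ x.val = ζ ^ y.val) :
    x = y :=
  ZMod.val_injective P.ℓ (hζ.pow_inj (ZMod.val_lt x) (ZMod.val_lt y) h)

/-- `s (ζ ^ i) = ζ ^ (ω(s) i)`. -/
theorem map_zeta_pow_val (hζ : IsPrimitiveRoot ζ P.ℓ) (s : GQ) (i : ZMod P.ℓ) :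
    s (ζ ^ i.val) = ζ ^ (om P s * i).val := by
  have h : om P s * i = (((om P s).val * i.val : ℕ) : ZMod P.ℓ) := by
    rw [Nat.cast_mul, ZMod.natCast_zmod_val, ZMod.natCast_zmod_val]
  rw [map_pow, map_root P hζ.pow_eq_one s, h, zeta_pow_val_natCast hζ.pow_eq_one, ← pow_mul]

/-- coboundaries are "peu ramifie": `β = ζ ^ i.val`, `u = 1` (`map_root`, `zeta_pow_val_*`). -/
theorem peu_cob (hζ : IsPrimitiveRoot ζ P.ℓ) (i : ZMod P.ℓ) : Peu P ζ (fun s => (om P s - 1) * i) := by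
  have hζ0 : ζ ≠ 0 := hζ.ne_zero P.prime.ne_zero
  refine ⟨1, ⟨ζ ^ i.val, pow_ne_zero _ hζ0, ?_, fun s _ => ?_⟩, 0, by simp⟩
  · rw [← pow_mul, mul_comm, pow_mul, hζ.pow_eq_one, one_pow]
  · rw [map_zeta_pow_val hζ, ← zeta_pow_val_add hζ.pow_eq_one]
    congr 2
    ring

/-- (`fil_one_of_v`, `Fil.exists_LC`) -/
theorem Peu.exists_PLC (hζ : IsPrimitiveRoot ζ P.ℓ) (h : Peu P ζ ψ) : ∃ a, PLC P ζ ψ a := by
  obtain ⟨u, h1, n, h2⟩ := h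
  have hu : u ∈ KK P (lam0 P) := by
    rw [KK_lam0]
    exact isKum_mem hζ.pow_eq_one h1
  have h3 : Fil P (lam0 P) 1 u := fil_one_of_v P (isLam0 P) hu (n := n) (by rw [v_lam0, h2])
  obtain ⟨a, ha⟩ := Fil.exists_LC P (isLam0 P) h3
  exact ⟨a, u, h1, ha⟩

/-! ### `PLC` -/

theorem PLC.congr (h : PLC P ζ ψ a) (hc : ∀ s ∈ P.ine, ψ s = ψ' s) : PLC P ζ ψ' a := by
  obtain ⟨u, h1, h2⟩ := h
  exact ⟨u, isKum_congr h1 hc, h2⟩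

/-- (`IsKum.unique`, `LC.mul_pow`, `LC.unique`) -/
theorem PLC.unique (h : PLC P ζ ψ a) (h' : PLC P ζ ψ a') : a = a' := by
  obtain ⟨u, h1, h2⟩ := h
  obtain ⟨u', h1', h2'⟩ := h'
  obtain ⟨y, hy, hy0, rfl⟩ := IsKum.unique h1 h1'
  have hy' : y ∈ KK P (lam0 P) := by rwa [KK_lam0]
  exact LC.unique P (isLam0 P) (isLevel0 P) (LC.mul_pow P h2 hy' hy0) h2'

theorem PLC.add (hζ : IsPrimitiveRoot ζ P.ℓ) (h : PLC P ζ ψ a) (h' : PLC P ζ ψ' a') :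
    PLC P ζ (ψ + ψ') (a + a') := by
  obtain ⟨u, h1, h2⟩ := h
  obtain ⟨u', h1', h2'⟩ := h'
  exact ⟨u * u', IsKum.mul hζ h1 h1', LC.mul P (isLam0 P) one_pos h2 h2'⟩

theorem PLC.nsmul (hζ : IsPrimitiveRoot ζ P.ℓ) (h : PLC P ζ ψ a) (n : ℕ) :
    PLC P ζ ((n : ZMod P.ℓ) • ψ) (n * a) := by
  obtain ⟨u, h1, h2⟩ := h
  exact ⟨u ^ n, IsKum.pow hζ h1 n, LC.pow P (isLam0 P) one_pos h2 n⟩

theorem plc_zero : PLC P ζ 0 0 := by
  refine ⟨1, ⟨1, one_ne_zero, one_pow _, fun s _ => by simp⟩, ?_⟩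
  have h := LC_one_add P (isLam0 P) (j := 1) (t := 0) (by simp)
  rwa [zero_mul, add_zero, rs_zero] at h

/-- the Kummer cocycle of `u⁻¹`. -/
theorem PLC.neg (hζ : IsPrimitiveRoot ζ P.ℓ) (h : PLC P ζ ψ a) : PLC P ζ (-ψ) (-a) := by
  obtain ⟨u, ⟨β, hβ0, hβu, hβ⟩, h2⟩ := h
  refine ⟨u⁻¹, ⟨β⁻¹, inv_ne_zero hβ0, by rw [inv_pow, hβu], fun s hs => ?_⟩,
    LC.inv P (isLam0 P) one_pos h2⟩
  have h1 := zeta_pow_val_add hζ.pow_eq_one (ψ s) (-ψ s)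
  rw [add_neg_cancel, ZMod.val_zero, pow_zero] at h1
  rw [map_inv₀, hβ s hs, Pi.neg_apply, mul_inv, inv_eq_of_mul_eq_one_right h1.symm]

theorem PLC.sub (hζ : IsPrimitiveRoot ζ P.ℓ) (h : PLC P ζ ψ a) (h' : PLC P ζ ψ' a') :
    PLC P ζ (ψ - ψ') (a - a') := by
  rw [sub_eq_add_neg, sub_eq_add_neg]
  exact h.add hζ (h'.neg hζ)

/-- changing `β` to `ζ^i β` changes the cocycle by the coboundary of `i` and does not change `u`. -/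
theorem PLC.add_cob (hζ : IsPrimitiveRoot ζ P.ℓ) (h : PLC P ζ ψ a) (i : ZMod P.ℓ) :
    PLC P ζ (fun s => ψ s + (om P s - 1) * i) a := by
  obtain ⟨u, ⟨β, hβ0, hβu, hβ⟩, h2⟩ := h
  have hζ0 : ζ ≠ 0 := hζ.ne_zero P.prime.ne_zero
  refine ⟨u, ⟨ζ ^ i.val * β, mul_ne_zero (pow_ne_zero _ hζ0) hβ0, ?_, fun s hs => ?_⟩, h2⟩
  · rw [mul_pow, hβu, ← pow_mul, mul_comm i.val, pow_mul, hζ.pow_eq_one, one_pow, one_mul]
  · rw [map_mul, hβ s hs, map_zeta_pow_val hζ, ← mul_assoc, ← mul_assoc,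
      ← zeta_pow_val_add hζ.pow_eq_one, ← zeta_pow_val_add hζ.pow_eq_one]
    congr 3
    ring

/-- leading coefficient `0` ⟹ `u ∈ Fil 2` (`LC_zero_iff`) ⟹ `u` is a `p`-th power in `Qb^I` (`Fil.isPow`, `p ≤ 2 (p - 1)`) ⟹ `ψ` is a coboundary
(`IsKum.isPow_iff`, `map_root`, `zeta_pow_val_*`). -/
theorem PLC.cob_of_zero (hζ : IsPrimitiveRoot ζ P.ℓ) (h : PLC P ζ ψ 0) :
    ∃ i : ZMod P.ℓ, ∀ s ∈ P.ine, ψ s = (om P s - 1) * i := by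
  obtain ⟨u, h1, h2⟩ := h
  have hu : u ∈ KK P (lam0 P) := by
    rw [KK_lam0]
    exact isKum_mem hζ.pow_eq_one h1
  have h3 : Fil P (lam0 P) 2 u := (LC_zero_iff P (isLam0 P) hu).1 h2
  have hℓ := P.prime.two_le
  obtain ⟨y, hy, hyu⟩ := Fil.isPow P (isLam0 P) (j := 2) (by omega) hu h3
  rw [KK_lam0] at hy
  obtain ⟨i, hi⟩ := (IsKum.isPow_iff hζ h1).1 ⟨y, hy, hyu⟩
  refine ⟨(i : ZMod P.ℓ), fun s hs => ?_⟩
  have h4 := hi s hs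
  rw [← zeta_pow_val_natCast hζ.pow_eq_one i, map_zeta_pow_val hζ,
    ← zeta_pow_val_add hζ.pow_eq_one] at h4
  have h5 := zeta_pow_val_inj hζ h4
  linear_combination h5

/-- Frobenius: `IsKum.conj` with `d = φ⁻¹` (`ine_normal`), `a = (om P φ).val` (`map_root`), `LC.map_frob` (`map_lam0`). -/
theorem PLC.frob (hζ : IsPrimitiveRoot ζ P.ℓ) (h : PLC P ζ ψ a) {φ : GQ} (hφ : IsFrob P P.ℓ φ) :
    PLC P ζ (fun s => om P φ * ψ (φ⁻¹ * s * φ)) (a ^ P.ℓ) := by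
  obtain ⟨u, h1, h2⟩ := h
  have hn : ∀ s ∈ P.ine, φ⁻¹ * s * φ⁻¹⁻¹ ∈ P.ine := fun s hs =>
    ine_normal P (P.dec.inv_mem hφ.1) hs
  have ha : φ⁻¹⁻¹ ζ = ζ ^ (om P φ).val := by
    rw [inv_inv]
    exact map_root P hζ.pow_eq_one φ
  have h3 := IsKum.conj hζ h1 hn ha
  rw [inv_inv] at h3
  refine ⟨φ u, isKum_congr h3 fun s _ => ?_, LC.map_frob P (isLam0 P) h2 hφ (map_lam0 P φ)⟩
  rw [ZMod.natCast_zmod_val]

end Fermat.Agent.S56.F.OrdC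

end
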