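/-
S56 block (F), sub-block F-C (ORDINARY CASE), file 2: THE LOCAL CONDITION `LLord`.

`r : G →* GL₂(k)` is UPPER TRIANGULAR on `D = P.dec`:  `r σ = (η₁ b; 0 η₂)`, `η₁|I = ω`, `η₂|I = 1` (`OrdData`; outcome of the classification F-0, CASE R, + CE, after
conjugating `r`), and the extension class `b|I` of `r` itself is "peu ramifie".
A cocycle is written `c σ = (c₁ c₂; c₃ -c₁)`:  `c₁ = c σ 0 0`, `c₂ = c σ 0 1`, `c₃ = c σ 1 0`.
`Nrm P ζ r c` ("normalised"): `c₃ = 0` on `D`, `c₁ = 0` on `I`, all `l ∘ c₂|I` "peu ramifie".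
`LLord P ζ r c` : `c + ∂X` is normalised for some trace zero `X`.
-/
import Fermat.Agent.S56.F.Ord.Cnt.Peu
import Fermat.Agent.S56.B.Contracts

set_option autoImplicit false

open Fermat.Agent.PT.Local Matrix
open Fermat.Agent.S53 (G M2)
open Fermat.Agent.S56.C (ad rm)
open Fermat.Agent.S56.B (ad_one ad_mul ad_add ad_sub ad_smul ad_zero trace_ad)

noncomputable section

namespace Fermat.Agent.S56.F.OrdC

/-- The ordinary datum. -/
structure OrdData (P : Plc) (ζ : Qb) {k : Type} [Field k] [Algebra (ZMod P.ℓ) k]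
    (r : G →* GL (Fin 2) k) : Prop where
  hodd : P.ℓ ≠ 2
  hζ : IsPrimitiveRoot ζ P.ℓ
  tri : ∀ σ ∈ P.dec, rm r σ 1 0 = 0
  ine00 : ∀ σ ∈ P.ine, rm r σ 0 0 = algebraMap (ZMod P.ℓ) k (om P σ)
  ine11 : ∀ σ ∈ P.ine, rm r σ 1 1 = 1
  smooth : ∃ N : Fld, FiniteDimensional ℚ N ∧ ∀ σ : G, (∀ x ∈ N, σ x = x) → r σ = 1
  peu : ∀ l : k →ₗ[ZMod P.ℓ] ZMod P.ℓ, Peu P ζ (fun s => l (rm r s 0 1))

/-- Local cocycles: smooth trace zero 1-cocycles on the decomposition group (values outside `D` are irrelevant). -/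
structure LCoc (P : Plc) {k : Type} [Field k] (r : G →* GL (Fin 2) k) (c : G → M2 k) : Prop where
  coc : ∀ g ∈ P.dec, ∀ h ∈ P.dec, c (g * h) = c g + ad (r g) (c h)
  smooth : ∃ N : Fld, FiniteDimensional ℚ N ∧ ∀ σ ∈ P.dec, (∀ x ∈ N, σ x = x) → c σ = 0
  tr0 : ∀ g ∈ P.dec, (c g).trace = 0

/-- the coboundary of `X`. -/
def dd {k : Type} [Field k] (r : G →* GL (Fin 2) k) (X : M2 k) : G → M2 k := fun σ => ad (r σ) X - X

/-- normalised local cocycles. -/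
structure Nrm (P : Plc) (ζ : Qb) {k : Type} [Field k] [Algebra (ZMod P.ℓ) k]
    (r : G →* GL (Fin 2) k) (c : G → M2 k) : Prop where
  lcoc : LCoc P r c
  low : ∀ σ ∈ P.dec, c σ 1 0 = 0
  diag : ∀ σ ∈ P.ine, c σ 0 0 = 0
  peu : ∀ l : k →ₗ[ZMod P.ℓ] ZMod P.ℓ, Peu P ζ (fun s => l (c s 0 1))

/-- **The local condition in the ordinary case.** -/
def LLord (P : Plc) (ζ : Qb) {k : Type} [Field k] [Algebra (ZMod P.ℓ) k]
    (r : G →* GL (Fin 2) k) (c : G → M2 k) : Prop :=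
  ∃ X : M2 k, X.trace = 0 ∧ Nrm P ζ r (c + dd r X)

variable {P : Plc} {ζ : Qb} {k : Type} [Field k] {r : G →* GL (Fin 2) k} {c c' : G → M2 k}

theorem dd_apply (X : M2 k) (σ : G) : dd r X σ = ad (r σ) X - X := rfl

theorem dd_add (X Y : M2 k) : dd r (X + Y) = dd r X + dd r Y := by
  funext σ
  simp only [dd_apply, Pi.add_apply, ad_add]
  abel

theorem dd_neg (X : M2 k) : dd r (-X) = - dd r X := by
  funext σ
  have h : ad (r σ) (-X) = - ad (r σ) X := by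
    have := ad_smul (r σ) (-1 : k) X
    simpa using this
  simp only [dd_apply, Pi.neg_apply, h]
  abel

/-! ### `LCoc` -/

theorem LCoc.congr (h : LCoc P r c) (hc : ∀ σ ∈ P.dec, c σ = c' σ) : LCoc P r c' := by
  obtain ⟨h1, ⟨N, hN, h2⟩, h3⟩ := h
  refine ⟨fun g hg h hh => ?_, ⟨N, hN, fun σ hσ hx => ?_⟩, fun g hg => ?_⟩
  · rw [← hc _ (P.dec.mul_mem hg hh), ← hc g hg, ← hc h hh]
    exact h1 g hg h hh
  · rw [← hc σ hσ]
    exact h2 σ hσ hx
  · rw [← hc g hg]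
    exact h3 g hg

theorem lCoc_zero : LCoc P r (0 : G → M2 k) :=
  ⟨fun g _ h _ => by simp [ad_zero], ⟨⊥, inferInstance, fun _ _ _ => rfl⟩, fun g _ => by simp⟩

theorem LCoc.add (h : LCoc P r c) (h' : LCoc P r c') : LCoc P r (c + c') := by
  obtain ⟨h1, ⟨N, hN, h2⟩, h3⟩ := h
  obtain ⟨h1', ⟨N', hN', h2'⟩, h3'⟩ := h'
  refine ⟨fun g hg h hh => ?_, ⟨N ⊔ N', IntermediateField.finiteDimensional_sup N N', fun σ hσ hx => ?_⟩,
    fun g hg => ?_⟩
  · simp only [Pi.add_apply, h1 g hg h hh, h1' g hg h hh, ad_add]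
    abel
  · simp only [Pi.add_apply]
    rw [h2 σ hσ fun x hxN => hx x ((le_sup_left : N ≤ N ⊔ N') hxN),
      h2' σ hσ fun x hxN => hx x ((le_sup_right : N' ≤ N ⊔ N') hxN), add_zero]
  · simp only [Pi.add_apply, Matrix.trace_add, h3 g hg, h3' g hg, add_zero]

theorem LCoc.smul (h : LCoc P r c) (a : k) : LCoc P r (a • c) := by
  obtain ⟨h1, ⟨N, hN, h2⟩, h3⟩ := h
  refine ⟨fun g hg h hh => ?_, ⟨N, hN, fun σ hσ hx => ?_⟩, fun g hg => ?_⟩
  · simp only [Pi.smul_apply, h1 g hg h hh, ad_smul, smul_add]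
  · simp only [Pi.smul_apply, h2 σ hσ hx, smul_zero]
  · simp only [Pi.smul_apply, Matrix.trace_smul, h3 g hg, smul_zero]

theorem LCoc.neg (h : LCoc P r c) : LCoc P r (-c) := by
  have := h.smul (-1)
  simpa using this

theorem LCoc.sub (h : LCoc P r c) (h' : LCoc P r c') : LCoc P r (c - c') := by
  rw [sub_eq_add_neg]
  exact h.add h'.neg

theorem lCoc_dd (hr : ∃ N : Fld, FiniteDimensional ℚ N ∧ ∀ σ : G, (∀ x ∈ N, σ x = x) → r σ = 1)
    (X : M2 k) : LCoc P r (dd r X) := by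
  obtain ⟨N, hN, h⟩ := hr
  refine ⟨fun g _ h _ => ?_, ⟨N, hN, fun σ _ hx => ?_⟩, fun g _ => ?_⟩
  · simp only [dd_apply, map_mul, ad_mul, ad_sub]
    abel
  · rw [dd_apply, h σ hx, ad_one, sub_self]
  · rw [dd_apply, Matrix.trace_sub, trace_ad, sub_self]

theorem LCoc.map_one (h : LCoc P r c) : c 1 = 0 := by
  have h1 := h.coc 1 P.dec.one_mem 1 P.dec.one_mem
  rw [mul_one, show r 1 = 1 from _root_.map_one r, ad_one] at h1
  exact left_eq_add.mp h1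

/-! ### `Nrm` -/

variable [Algebra (ZMod P.ℓ) k]

theorem Nrm.congr (h : Nrm P ζ r c) (hc : ∀ σ ∈ P.dec, c σ = c' σ) : Nrm P ζ r c' := by
  refine ⟨h.lcoc.congr hc, fun σ hσ => ?_, fun σ hσ => ?_, fun l => ?_⟩
  · rw [← hc σ hσ]
    exact h.low σ hσ
  · rw [← hc σ (ine_le_dec P hσ)]
    exact h.diag σ hσ
  · exact (h.peu l).congr fun s hs => by rw [hc s (ine_le_dec P hs)]

theorem nrm_zero : Nrm P ζ r (0 : G → M2 k) :=
  ⟨lCoc_zero, fun _ _ => rfl, fun _ _ => rfl, fun l => peu_zero.congr fun s _ => by simp⟩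

theorem Nrm.add (hζ : IsPrimitiveRoot ζ P.ℓ) (h : Nrm P ζ r c) (h' : Nrm P ζ r c') :
    Nrm P ζ r (c + c') := by
  refine ⟨h.lcoc.add h'.lcoc, fun σ hσ => ?_, fun σ hσ => ?_, fun l => ?_⟩
  · simp [h.low σ hσ, h'.low σ hσ]
  · simp [h.diag σ hσ, h'.diag σ hσ]
  · exact ((h.peu l).add hζ (h'.peu l)).congr fun s _ => by simp

theorem Nrm.smul (h : Nrm P ζ r c) (a : k) : Nrm P ζ r (a • c) := by
  refine ⟨h.lcoc.smul a, fun σ hσ => ?_, fun σ hσ => ?_, fun l => ?_⟩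
  · simp [h.low σ hσ]
  · simp [h.diag σ hσ]
  · exact (h.peu (l ∘ₗ LinearMap.mulLeft (ZMod P.ℓ) a)).congr fun s _ => by simp

theorem Nrm.neg (h : Nrm P ζ r c) : Nrm P ζ r (-c) := by
  have := h.smul (-1)
  simpa using this

theorem Nrm.sub (hζ : IsPrimitiveRoot ζ P.ℓ) (h : Nrm P ζ r c) (h' : Nrm P ζ r c') :
    Nrm P ζ r (c - c') := by
  rw [sub_eq_add_neg]
  exact h.add hζ h'.neg

/-! ### `LLord` is a local condition -/

/-- `LLord` as a `B.LocCond`. -/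
def locCond (hζ : IsPrimitiveRoot ζ P.ℓ) : B.LocCond r P.dec where
  LL := LLord P ζ r
  add := by
    rintro c c' ⟨X, hX, h⟩ ⟨X', hX', h'⟩
    refine ⟨X + X', by rw [Matrix.trace_add, hX, hX', add_zero], ?_⟩
    have := h.add hζ h'
    rwa [show c + c' + dd r (X + X') = c + dd r X + (c' + dd r X') by rw [dd_add]; abel]
  cob := by
    intro X hX
    refine ⟨-X, by rw [Matrix.trace_neg, hX, neg_zero], ?_⟩
    have h0 : (fun σ => ad (r σ) X - X) + dd r (-X) = 0 := by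
      rw [dd_neg]
      exact add_neg_cancel (dd r X)
    rw [h0]
    exact nrm_zero
  congr := by
    rintro c c' hc ⟨X, hX, h⟩
    exact ⟨X, hX, h.congr fun σ hσ => by simp only [Pi.add_apply, hc σ hσ]⟩

end Fermat.Agent.S56.F.OrdC

end
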