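/-
S56 block (F), F-C COUNT, file 3: calculus of normalised cocycles in upper triangular coordinates.
`chi r σ = η₁/η₂`, `bet r σ = b/η₂`  (`r σ = (η₁ b; 0 η₂)` on `D`).
-/
import Fermat.Agent.S56.F.Ord.Cnt.LL
import Fermat.Agent.S56.C.LiftForm

set_option autoImplicit false

open Fermat.Agent.PT.Local Matrix
open Fermat.Agent.S53 (G M2)
open Fermat.Agent.S56.C (ad rm)
open Fermat.Agent.S56.B (ad_one ad_mul ad_add ad_sub ad_smul ad_zero trace_ad)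

noncomputable section

namespace Fermat.Agent.S56.F.OrdC

variable {k : Type} [Field k]

/-- `χ = η₁ / η₂`. -/
def chi (r : G →* GL (Fin 2) k) (σ : G) : k := rm r σ 0 0 / rm r σ 1 1

/-- `β = b / η₂`. -/
def bet (r : G →* GL (Fin 2) k) (σ : G) : k := rm r σ 0 1 / rm r σ 1 1

section tri

variable {r : G →* GL (Fin 2) k} {σ τ : G}

/-- (`det (r σ) ≠ 0`, `Matrix.det_fin_two`.) -/
theorem diag_ne_zero (h : rm r σ 1 0 = 0) : rm r σ 0 0 ≠ 0 ∧ rm r σ 1 1 ≠ 0 := by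
  have h1 := congrArg Matrix.det (C.rm_mul_inv (r := r) σ)
  rw [Matrix.det_mul, Matrix.det_one, Matrix.det_fin_two (rm r σ), h, mul_zero, sub_zero] at h1
  have h2 : rm r σ 0 0 * rm r σ 1 1 ≠ 0 := left_ne_zero_of_mul_eq_one h1
  exact ⟨left_ne_zero_of_mul h2, right_ne_zero_of_mul h2⟩

/-- (`C.ad_mul_rm : ad (r g) X * rm r g = rm r g * X`, compare the four entries; `diag_ne_zero`.) -/
theorem ad_tri (h : rm r σ 1 0 = 0) {X : M2 k} (hX : X 1 0 = 0) :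
    ad (r σ) X = !![X 0 0, chi r σ * X 0 1 + bet r σ * (X 1 1 - X 0 0); 0, X 1 1] := by
  obtain ⟨-, hd⟩ := diag_ne_zero h
  apply C.mul_rm_cancel (r := r) σ
  rw [C.ad_mul_rm]
  ext i j
  fin_cases i <;> fin_cases j
  · simp [Matrix.mul_apply, Fin.sum_univ_two, h, hX, mul_comm]
  · simp only [Matrix.mul_apply, Fin.sum_univ_two, chi, bet, Fin.zero_eta, Fin.mk_one,
      Matrix.of_apply, Matrix.cons_val_zero, Matrix.cons_val_one, Matrix.cons_val', Fin.isValue,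
      Matrix.cons_val_fin_one]
    field_simp
    ring
  · simp [Matrix.mul_apply, Fin.sum_univ_two, h, hX]
  · simp [Matrix.mul_apply, Fin.sum_univ_two, h, hX, mul_comm]

/-- (`C.rm_mul`, entries.) -/
theorem chi_mul (h : rm r σ 1 0 = 0) (h' : rm r τ 1 0 = 0) : chi r (σ * τ) = chi r σ * chi r τ := by
  rw [chi, chi, chi, C.rm_mul, Matrix.mul_apply, Matrix.mul_apply, Fin.sum_univ_two,
    Fin.sum_univ_two, h, h', mul_zero, zero_mul, add_zero, zero_add, mul_div_mul_comm]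

theorem bet_mul (h : rm r σ 1 0 = 0) (h' : rm r τ 1 0 = 0) :
    bet r (σ * τ) = bet r σ + chi r σ * bet r τ := by
  obtain ⟨-, hd⟩ := diag_ne_zero h
  obtain ⟨-, hd'⟩ := diag_ne_zero h'
  rw [bet, bet, bet, chi, C.rm_mul, Matrix.mul_apply, Matrix.mul_apply, Fin.sum_univ_two,
    Fin.sum_univ_two, h, zero_mul, zero_add]
  field_simp
  ring

theorem chi_ne_zero (h : rm r σ 1 0 = 0) : chi r σ ≠ 0 :=
  div_ne_zero (diag_ne_zero h).1 (diag_ne_zero h).2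

/-- the coboundary of an upper triangular trace zero matrix (`ad_tri`). -/
theorem dd_tri (h : rm r σ 1 0 = 0) (x₁ x₂ : k) :
    dd r !![x₁, x₂; 0, -x₁] σ = !![0, (chi r σ - 1) * x₂ - 2 * bet r σ * x₁; 0, 0] := by
  rw [dd, ad_tri h (by simp)]
  ext i j
  fin_cases i <;> fin_cases j
  · simp
  · simp
    ring
  · simp
  · simp

end tri

variable {P : Plc} {ζ : Qb} [Algebra (ZMod P.ℓ) k] {r : G →* GL (Fin 2) k} {c c' : G → M2 k}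

theorem OrdData.chi_ine (S : OrdData P ζ r) {s : G} (hs : s ∈ P.ine) :
    chi r s = algebraMap (ZMod P.ℓ) k (om P s) := by
  rw [chi, S.ine00 s hs, S.ine11 s hs, div_one]

theorem OrdData.bet_ine (S : OrdData P ζ r) {s : G} (hs : s ∈ P.ine) : bet r s = rm r s 0 1 := by
  rw [bet, S.ine11 s hs, div_one]

/-- there is `s₀ ∈ I` with `χ(s₀) ≠ 1` (`exists_ine_om_ne_one`, injectivity of `algebraMap`). -/
theorem OrdData.exists_chi_ne_one (S : OrdData P ζ r) : ∃ s ∈ P.ine, om P s ≠ 1 ∧ chi r s ≠ 1 := by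
  obtain ⟨s, hs, h⟩ := exists_ine_om_ne_one P S.hodd
  refine ⟨s, hs, h, fun h1 => h ?_⟩
  rw [S.chi_ine hs, ← map_one (algebraMap (ZMod P.ℓ) k)] at h1
  exact (algebraMap (ZMod P.ℓ) k).injective h1

/-- `c₄ = -c₁`. -/
theorem LCoc.c11 (h : LCoc P r c) {σ : G} (hσ : σ ∈ P.dec) : c σ 1 1 = - c σ 0 0 := by
  have := h.tr0 σ hσ
  rw [Matrix.trace_fin_two] at this
  exact eq_neg_of_add_eq_zero_right this

/-- `c₁` is a homomorphism on `D` (`LCoc.coc`, `ad_tri`). -/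
theorem Nrm.c1_mul (S : OrdData P ζ r) (h : Nrm P ζ r c) {σ τ : G} (hσ : σ ∈ P.dec) (hτ : τ ∈ P.dec) :
    c (σ * τ) 0 0 = c σ 0 0 + c τ 0 0 := by
  rw [h.lcoc.coc σ hσ τ hτ, ad_tri (S.tri σ hσ) (h.low τ hτ)]
  simp

/-- (`LCoc.coc`, `ad_tri`, `LCoc.c11`.) -/
theorem Nrm.c2_mul (S : OrdData P ζ r) (h : Nrm P ζ r c) {σ τ : G} (hσ : σ ∈ P.dec) (hτ : τ ∈ P.dec) :
    c (σ * τ) 0 1 = c σ 0 1 + chi r σ * c τ 0 1 - 2 * bet r σ * c τ 0 0 := by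
  rw [h.lcoc.coc σ hσ τ hτ, ad_tri (S.tri σ hσ) (h.low τ hτ), h.lcoc.c11 hτ]
  simp
  ring

/-- `c₁(φ^j) = j c₁(φ)`. -/
theorem Nrm.c1_pow (S : OrdData P ζ r) (h : Nrm P ζ r c) {φ : G} (hφ : φ ∈ P.dec) (j : ℕ) :
    c (φ ^ j) 0 0 = j * c φ 0 0 := by
  induction j with
  | zero => simp [h.lcoc.map_one]
  | succ j ih =>
    rw [pow_succ, h.c1_mul S (P.dec.pow_mem hφ j) hφ, ih]
    push_cast
    ring

/-- **`c₁` is determined by `c₁(φ)`.**  (`LF.dec_gen` with `N` = a level of smoothness of `c`: `σ = φ^j τ u`; `c1_mul`, `c1_pow`, `Nrm.diag`.) -/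
theorem Nrm.c1_zero (S : OrdData P ζ r) (h : Nrm P ζ r c) {φ : G} (hφ : IsFrob P P.ℓ φ)
    (h0 : c φ 0 0 = 0) : ∀ σ ∈ P.dec, c σ 0 0 = 0 := by
  obtain ⟨N, hN, hs⟩ := h.lcoc.smooth
  intro σ hσ
  obtain ⟨j, τ, hτ, u, hu, hux, rfl⟩ := LF.dec_gen P hφ N hσ
  have hφj : φ ^ j ∈ P.dec := P.dec.pow_mem hφ.1 j
  have hτd : τ ∈ P.dec := ine_le_dec P hτ
  rw [h.c1_mul S (P.dec.mul_mem hφj hτd) hu, h.c1_mul S hφj hτd, h.c1_pow S hφ.1, h0, h.diag τ hτ,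
    hs u hu hux]
  simp

/-- normalised cocycles with `c₁ = 0` on `D`. -/
structure Nrm0 (P : Plc) (ζ : Qb) {k : Type} [Field k] [Algebra (ZMod P.ℓ) k]
    (r : G →* GL (Fin 2) k) (c : G → M2 k) : Prop extends Nrm P ζ r c where
  diag0 : ∀ σ ∈ P.dec, c σ 0 0 = 0

theorem Nrm0.sub (hζ : IsPrimitiveRoot ζ P.ℓ) (h : Nrm0 P ζ r c) (h' : Nrm0 P ζ r c') :
    Nrm0 P ζ r (c - c') :=
  ⟨h.toNrm.sub hζ h'.toNrm, fun σ hσ => by simp [h.diag0 σ hσ, h'.diag0 σ hσ]⟩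

/-- `c₂` is a cocycle with values in `k(χ)`. -/
theorem Nrm0.c2_mul (S : OrdData P ζ r) (h : Nrm0 P ζ r c) {σ τ : G} (hσ : σ ∈ P.dec) (hτ : τ ∈ P.dec) :
    c (σ * τ) 0 1 = c σ 0 1 + chi r σ * c τ 0 1 := by
  rw [h.toNrm.c2_mul S hσ hτ, h.diag0 τ hτ]
  ring

/-- an element of `Nrm0` is determined on `D` by `c₂`. -/
theorem Nrm0.eq_of_c2 (h : Nrm0 P ζ r c) {σ : G} (hσ : σ ∈ P.dec) : c σ = !![0, c σ 0 1; 0, 0] := by
  ext i j
  fin_cases i <;> fin_cases j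
  · simpa using h.diag0 σ hσ
  · simp
  · simpa using h.low σ hσ
  · simpa [h.diag0 σ hσ] using h.lcoc.c11 hσ

/-- conjugation by `φ⁻¹`:  `χ(φ) c₂(φ⁻¹ s φ) = c₂(s) + (1 - χ(s)) χ(φ) c₂(φ⁻¹)`.
(`c2_mul` twice; `0 = c₂(φ⁻¹ φ) = c₂(φ⁻¹) + χ(φ⁻¹) c₂(φ)`; `chi_mul`: `χ(φ⁻¹) χ(φ) = χ(1) = 1`.) -/
theorem Nrm0.c2_conj (S : OrdData P ζ r) (h : Nrm0 P ζ r c) {φ s : G} (hφ : φ ∈ P.dec) (hs : s ∈ P.dec) :
    chi r φ * c (φ⁻¹ * s * φ) 0 1 = c s 0 1 + (1 - chi r s) * (chi r φ * c φ⁻¹ 0 1) := by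
  have hφi : φ⁻¹ ∈ P.dec := P.dec.inv_mem hφ
  have h1 := h.c2_mul S (P.dec.mul_mem hφi hs) hφ
  have h2 := h.c2_mul S hφi hs
  have h3 := h.c2_mul S hφi hφ
  rw [inv_mul_cancel, h.lcoc.map_one] at h3
  have h4 : chi r φ⁻¹ * chi r φ = 1 := by
    rw [← chi_mul (S.tri _ hφi) (S.tri _ hφ), inv_mul_cancel]
    simp [chi, rm]
  have h5 : chi r (φ⁻¹ * s) = chi r φ⁻¹ * chi r s := chi_mul (S.tri _ hφi) (S.tri _ hs)
  rw [h5] at h1
  simp only [Matrix.zero_apply] at h3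
  rw [h1, h2]
  linear_combination (c s 0 1) * h4 - chi r φ * chi r s * h3

/-- **no `I`-invariants in `k(χ)`**: if `c₂ = 0` on `I` then `c₂ = 0` on `D`.
(`s₀` of `exists_chi_ne_one`; `c₂(s₀ σ) = χ(s₀) c₂(σ)`, `s₀ σ = σ (σ⁻¹ s₀ σ)`, `σ⁻¹ s₀ σ ∈ I` (`ine_normal` for `σ⁻¹`), so `c₂(s₀ σ) = c₂(σ)`.) -/
theorem Nrm0.zero_of_ine (S : OrdData P ζ r) (h : Nrm0 P ζ r c) (h0 : ∀ s ∈ P.ine, c s 0 1 = 0) :
    ∀ σ ∈ P.dec, c σ = 0 := by
  intro σ hσ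
  obtain ⟨s₀, hs₀, -, hχ⟩ := S.exists_chi_ne_one
  have hs₀d : s₀ ∈ P.dec := ine_le_dec P hs₀
  have hσi : σ⁻¹ ∈ P.dec := P.dec.inv_mem hσ
  have hconj : σ⁻¹ * s₀ * σ ∈ P.ine := by
    have := ine_normal P hσi hs₀
    rwa [inv_inv] at this
  have h1 := h.c2_mul S hs₀d hσ
  have h2 := h.c2_mul S hσ (ine_le_dec P hconj)
  rw [h0 _ hconj, mul_zero, add_zero,
    show σ * (σ⁻¹ * s₀ * σ) = s₀ * σ by group] at h2
  rw [h0 _ hs₀, zero_add, h2] at h1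
  have h3 : (chi r s₀ - 1) * c σ 0 1 = 0 := by linear_combination -h1
  have h4 : c σ 0 1 = 0 := (mul_eq_zero.mp h3).resolve_left (sub_ne_zero.mpr hχ)
  rw [h.eq_of_c2 hσ, h4]
  ext i j
  fin_cases i <;> fin_cases j <;> rfl

/-- the cocycle `(0, y; 0, 0)`. -/
def upC (y : G → k) : G → M2 k := fun σ => !![0, y σ; 0, 0]

/-- `2 ≠ 0` in a field over `ZMod ℓ`, `ℓ` an odd prime. -/
theorem two_ne_zero_of_plc (hodd : P.ℓ ≠ 2) : (2 : k) ≠ 0 := by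
  have _ : Fact P.ℓ.Prime := ⟨P.prime⟩
  have h2 : (2 : ZMod P.ℓ) ≠ 0 := by
    intro h
    have h' : ((2 : ℕ) : ZMod P.ℓ) = 0 := by exact_mod_cast h
    rw [ZMod.natCast_eq_zero_iff] at h'
    exact hodd ((Nat.prime_dvd_prime_iff_eq P.prime Nat.prime_two).mp h')
  intro h
  apply h2
  apply (algebraMap (ZMod P.ℓ) k).injective
  rw [map_ofNat, map_zero]
  exact h

/-- the multiples of the class of `r` are normalised cocycles:  `upC (a β) = dd r (diag(-a/2, a/2))` on `D` (`dd_tri`, `2 ≠ 0` in `k`), so `LCoc` by `lCoc_dd` + `LCoc.congr`;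
`peu` from `S.peu (l ∘ (a ·))` and `bet_ine`. -/
theorem OrdData.nrm0_bet (S : OrdData P ζ r) (a : k) : Nrm0 P ζ r (upC fun σ => a * bet r σ) := by
  have h2 : (2 : k) ≠ 0 := two_ne_zero_of_plc S.hodd
  have hdd : ∀ σ ∈ P.dec, dd r !![-(a / 2), 0; 0, - -(a / 2)] σ = upC (fun σ => a * bet r σ) σ := by
    intro σ hσ
    have e : (chi r σ - 1) * 0 - 2 * bet r σ * -(a / 2) = a * bet r σ := by
      field_simp
      ring
    rw [dd_tri (S.tri σ hσ), upC, e]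
  refine ⟨⟨(lCoc_dd S.smooth _).congr hdd, fun σ _ => ?_, fun σ _ => ?_, fun l => ?_⟩, fun σ _ => ?_⟩
  · simp [upC]
  · simp [upC]
  · exact (S.peu (l ∘ₗ LinearMap.mulLeft (ZMod P.ℓ) a)).congr fun s hs => by
      simp [upC, S.bet_ine hs]
  · simp [upC]

/-- `2 ≠ 0` in `k`. -/
theorem OrdData.two_ne_zero (S : OrdData P ζ r) : (2 : k) ≠ 0 := by
  exact two_ne_zero_of_plc S.hodd

end Fermat.Agent.S56.F.OrdC

end
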