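/-
S56 block (F), F-C COUNT, file 4: THE INVARIANT  `Ainv c : l ↦ lc₁(u_l)`  of a normalised cocycle, `u_l` = Kummer element of `l ∘ c₂|I`.
`Ainv c ∈ W = Hom_{F_p}(k^∨, FF)`, an `FF`-vector space of dimension `[k : F_p]`;  for `c ∈ Nrm0` it is fixed by the `p`-semilinear operator `Phi`.
-/
import Fermat.Agent.S56.F.Ord.Cnt.Coc
import Fermat.Agent.S56.F.Semilin

set_option autoImplicit false

open Fermat.Agent.PT.Local Matrix
open Fermat.Agent.S53 (G M2)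
open Fermat.Agent.S56.C (ad rm)
open Fermat.Agent.S56.F.LF (FF)

noncomputable section

namespace Fermat.Agent.S56.F.OrdC

instance algFF (P : Plc) : Algebra (ZMod P.ℓ) (FF P) := ZMod.algebra _ _

/-- `k^∨ = Hom_{F_p}(k, F_p)`. -/
abbrev Dk (P : Plc) (k : Type) [Field k] [Algebra (ZMod P.ℓ) k] : Type := k →ₗ[ZMod P.ℓ] ZMod P.ℓ

/-- `W = Hom_{F_p}(k^∨, FF)`. -/
abbrev W (P : Plc) (k : Type) [Field k] [Algebra (ZMod P.ℓ) k] : Type := Dk P k →ₗ[ZMod P.ℓ] FF P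

/-- the leading coefficient of a "peu ramifie" cocycle (junk value `0`). -/
def lcOf (P : Plc) (ζ : Qb) (ψ : GQ → ZMod P.ℓ) : FF P :=
  open Classical in if h : ∃ a, PLC P ζ ψ a then h.choose else 0

variable {P : Plc} {ζ : Qb}

theorem PLC.lcOf_eq {ψ : GQ → ZMod P.ℓ} {a : FF P} (h : PLC P ζ ψ a) : lcOf P ζ ψ = a := by
  have h1 : ∃ a, PLC P ζ ψ a := ⟨a, h⟩
  rw [lcOf, dif_pos h1]
  exact h1.choose_spec.unique h

theorem Peu.plc_lcOf (hζ : IsPrimitiveRoot ζ P.ℓ) {ψ : GQ → ZMod P.ℓ} (h : Peu P ζ ψ) :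
    PLC P ζ ψ (lcOf P ζ ψ) := by
  obtain ⟨a, ha⟩ := h.exists_PLC hζ
  rwa [ha.lcOf_eq]

variable {k : Type} [Field k] [Algebra (ZMod P.ℓ) k] {r : G →* GL (Fin 2) k} {c c' : G → M2 k}

/-- **The invariant.** -/
def Ainv (hζ : IsPrimitiveRoot ζ P.ℓ) (h : Nrm P ζ r c) : W P k :=
  AddMonoidHom.toZModLinearMap P.ℓ
    { toFun := fun l : Dk P k => lcOf P ζ (fun s => l (c s 0 1))
      map_zero' := (plc_zero.congr fun s _ => by simp).lcOf_eq
      map_add' := fun l l' =>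
        ((((h.peu l).plc_lcOf hζ).add hζ ((h.peu l').plc_lcOf hζ)).congr fun s _ => by simp).lcOf_eq }

theorem Ainv_apply (hζ : IsPrimitiveRoot ζ P.ℓ) (h : Nrm P ζ r c) (l : Dk P k) :
    Ainv hζ h l = lcOf P ζ (fun s => l (c s 0 1)) := rfl

theorem Ainv_spec (hζ : IsPrimitiveRoot ζ P.ℓ) (h : Nrm P ζ r c) (l : Dk P k) :
    PLC P ζ (fun s => l (c s 0 1)) (Ainv hζ h l) :=
  (h.peu l).plc_lcOf hζ

/-- `l ↦ l ∘ (μ ·)`. -/
def preMul (P : Plc) {k : Type} [Field k] [Algebra (ZMod P.ℓ) k] (μ : k) (l : Dk P k) : Dk P k :=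
  l ∘ₗ LinearMap.mulLeft (ZMod P.ℓ) μ

theorem preMul_apply (μ : k) (l : Dk P k) (x : k) : preMul P μ l x = l (μ * x) := rfl

/-- **The semilinear operator**  `Phi μ w A = (l ↦ w A(l ∘ μ)^p)`. -/
def Phi (P : Plc) {k : Type} [Field k] [Algebra (ZMod P.ℓ) k] (μ : k) (w : FF P) : W P k →+ W P k where
  toFun A := AddMonoidHom.toZModLinearMap P.ℓ
    { toFun := fun l : Dk P k => w * A (preMul P μ l) ^ P.ℓ
      map_zero' := by
        have : preMul P μ (0 : Dk P k) = 0 := rfl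
        rw [this, map_zero, zero_pow P.prime.ne_zero, mul_zero]
      map_add' := fun l l' => by
        have : preMul P μ (l + l') = preMul P μ l + preMul P μ l' := rfl
        rw [this, map_add, add_pow_char, mul_add] }
  map_zero' := by
    ext l
    simp [zero_pow P.prime.ne_zero]
  map_add' A A' := by
    ext l
    simp [add_pow_char, mul_add]

theorem Phi_apply (μ : k) (w : FF P) (A : W P k) (l : Dk P k) :
    Phi P μ w A l = w * A (preMul P μ l) ^ P.ℓ := rfl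

theorem Phi_smul (μ : k) (w : FF P) (a : FF P) (A : W P k) :
    Phi P μ w (a • A) = a ^ P.ℓ • Phi P μ w A := by
  ext l
  simp only [Phi_apply, LinearMap.smul_apply, smul_eq_mul, mul_pow]
  ring

/-- `#k^∨ = #k` (`Module.natCard_eq_pow_finrank`, `Subspace.dual_finrank_eq`). -/
theorem card_Dk [Finite k] : Nat.card (Dk P k) = Nat.card k := by
  have : Module.Finite (ZMod P.ℓ) k := Module.Finite.of_finite
  rw [Module.natCard_eq_pow_finrank (K := ZMod P.ℓ) (V := k),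
    Module.natCard_eq_pow_finrank (K := ZMod P.ℓ) (V := Dk P k)]
  congr 1
  exact Subspace.dual_finrank_eq

/-- (`F.card_fix_hom_le_card` with `k0 = ZMod p`, `U = k^∨`; `Nat.card_zmod`; `Phi_smul`; `card_Dk`.) -/
theorem card_fix [Finite k] (μ : k) (w : FF P) :
    Finite {A : W P k // Phi P μ w A = A} ∧ Nat.card {A : W P k // Phi P μ w A = A} ≤ Nat.card k := by
  have : Module.Finite (ZMod P.ℓ) k := Module.Finite.of_finite
  have h := Fermat.Agent.S56.F.card_fix_hom_le_card (k0 := ZMod P.ℓ) (U := Dk P k) (FF := FF P)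
    (Phi P μ w) (fun a A => by rw [Nat.card_zmod]; exact Phi_smul μ w a A)
  rwa [card_Dk] at h

/-- the constant `w` of the operator attached to `φ`. -/
def wOf (P : Plc) (φ : GQ) : FF P := (((om P φ).val : ℕ) : FF P)⁻¹

/-- `l (algebraMap x * y) = x * l y`. -/
theorem Dk_algebraMap_mul (l : Dk P k) (x : ZMod P.ℓ) (y : k) : l (algebraMap (ZMod P.ℓ) k x * y) = x * l y := by
  rw [← Algebra.smul_def, map_smul, smul_eq_mul]

/-- **Frobenius equivariance.**  Put `μ = χ(φ)`, `l' = l ∘ μ`, `n = (om P φ).val`.  `PLC.frob` applied to `Ainv_spec l'` : `PLC (s ↦ ω(φ) l'(c₂(φ⁻¹ s φ))) (A(l')^p)`.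
By `Nrm0.c2_conj`, `chi_ine`, `Dk_algebraMap_mul`: `l'(c₂(φ⁻¹ s φ)) = l(c₂ s) + (1 - ω(s)) l(μ c₂(φ⁻¹))` for `s ∈ I`.
On the other hand `(Ainv_spec l).nsmul n` and `PLC.add_cob` with `i = - ω(φ) l(μ c₂(φ⁻¹))` : `PLC (the same function on I) (n A(l))`.  `PLC.unique`: `A(l')^p = n A(l)`;
`(n : FF) ≠ 0` (`om_ne_zero`, `CharP.cast_eq_zero_iff (FF P) P.ℓ`, `ZMod.natCast_zmod_val`). -/
theorem Ainv_fixed (S : OrdData P ζ r) (h : Nrm0 P ζ r c) {φ : GQ} (hφ : IsFrob P P.ℓ φ) :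
    Phi P (chi r φ) (wOf P φ) (Ainv S.hζ h.toNrm) = Ainv S.hζ h.toNrm := by
  ext l
  rw [Phi_apply]
  have hn' : (((om P φ).val : ℕ) : ZMod P.ℓ) = om P φ := ZMod.natCast_zmod_val _
  have h1 := (Ainv_spec S.hζ h.toNrm (preMul P (chi r φ) l)).frob S.hζ hφ
  have h2 := ((Ainv_spec S.hζ h.toNrm l).nsmul S.hζ (om P φ).val).add_cob S.hζ
    (- (om P φ * l (chi r φ * c φ⁻¹ 0 1)))
  have h3 : Ainv S.hζ h.toNrm (preMul P (chi r φ) l) ^ P.ℓ
      = ((om P φ).val : ℕ) * Ainv S.hζ h.toNrm l := by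
    refine h1.unique (h2.congr fun s hs => ?_)
    have hc := h.c2_conj S hφ.1 (ine_le_dec P hs)
    have h4 : l ((1 - algebraMap (ZMod P.ℓ) k (om P s)) * (chi r φ * c φ⁻¹ 0 1))
        = l (chi r φ * c φ⁻¹ 0 1) - om P s * l (chi r φ * c φ⁻¹ 0 1) := by
      rw [sub_mul, one_mul, map_sub, Dk_algebraMap_mul]
    rw [preMul_apply, hc, map_add, S.chi_ine hs, h4, Pi.smul_apply, smul_eq_mul, hn']
    ring
  have hn0 : (((om P φ).val : ℕ) : FF P) ≠ 0 := by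
    intro h0
    rw [CharP.cast_eq_zero_iff (FF P) P.ℓ, ← ZMod.natCast_eq_zero_iff, hn'] at h0
    exact om_ne_zero P φ h0
  rw [h3, wOf, inv_mul_cancel_left₀ hn0]

/-- `F_p`-linear functionals separate the points of `k`. -/
theorem eq_of_forall_Dk {x y : k} (h : ∀ l : Dk P k, l x = l y) : x = y := by
  rw [← sub_eq_zero]
  refine (Module.forall_dual_apply_eq_zero_iff (ZMod P.ℓ) (x - y)).1 fun l => ?_
  rw [map_sub, sub_eq_zero]
  exact h l

theorem Inv_Dk_chi_sub_one (S : OrdData P ζ r) (l : Dk P k) {t : G} (ht : t ∈ P.ine) (y : k) :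
    l ((chi r t - 1) * y) = (om P t - 1) * l y := by
  rw [S.chi_ine ht, sub_mul, one_mul, map_sub, Dk_algebraMap_mul, sub_mul, one_mul]

theorem Inv_dd_up (S : OrdData P ζ r) (x : k) {σ : G} (hσ : σ ∈ P.dec) :
    dd r !![0, x; 0, 0] σ = !![0, (chi r σ - 1) * x; 0, 0] := by
  have := dd_tri (S.tri σ hσ) 0 x
  rw [neg_zero, mul_zero, sub_zero] at this
  exact this

/-- if all leading coefficients vanish then `c₂|I` is a coboundary.  (`PLC.cob_of_zero`: `l(c₂ s) = (ω(s) - 1) i_l` on `I`.  `s₀` of `exists_chi_ne_one`,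
`x := c₂(s₀) / (χ(s₀) - 1)`;  `l(x) = i_l` [`c₂ s₀ = (χ s₀ - 1) x`, `chi_ine`, `Dk_algebraMap_mul`, `map_sub`], so `l(c₂ s) = l((χ(s) - 1) x)` for all `l`; `eq_of_forall_Dk`.) -/
theorem Nrm0.exists_cob_ine (S : OrdData P ζ r) (h : Nrm0 P ζ r c)
    (h0 : ∀ l : Dk P k, PLC P ζ (fun s => l (c s 0 1)) 0) :
    ∃ x : k, ∀ s ∈ P.ine, c s 0 1 = (chi r s - 1) * x := by
  obtain ⟨s₀, hs₀, hom, hχ⟩ := S.exists_chi_ne_one
  have hne : chi r s₀ - 1 ≠ 0 := sub_ne_zero.mpr hχ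
  obtain ⟨x, hxdef⟩ : ∃ x : k, x = c s₀ 0 1 / (chi r s₀ - 1) := ⟨_, rfl⟩
  have h2 : c s₀ 0 1 = (chi r s₀ - 1) * x := by
    rw [hxdef]
    field_simp
  refine ⟨x, fun s hs => eq_of_forall_Dk (P := P) fun l => ?_⟩
  obtain ⟨i, hi⟩ := (h0 l).cob_of_zero S.hζ
  have hx : l x = i := by
    have h1 : l (c s₀ 0 1) = (om P s₀ - 1) * i := hi s₀ hs₀
    rw [h2, Inv_Dk_chi_sub_one S l hs₀] at h1
    exact mul_left_cancel₀ (sub_ne_zero.mpr hom) h1
  rw [Inv_Dk_chi_sub_one S l hs, hx]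
  exact hi s hs

/-- the coboundaries of `(0 x; 0 0)` are in `Nrm0` (`lCoc_dd`, `dd_tri` with `x₁ = 0`, `peu_cob`, `chi_ine`, `Dk_algebraMap_mul`). -/
theorem OrdData.nrm0_dd (S : OrdData P ζ r) (x : k) : Nrm0 P ζ r (dd r !![0, x; 0, 0]) := by
  refine ⟨⟨lCoc_dd S.smooth _, fun σ hσ => ?_, fun σ hσ => ?_, fun l => ?_⟩, fun σ hσ => ?_⟩
  · rw [Inv_dd_up S x hσ]
    simp
  · rw [Inv_dd_up S x (ine_le_dec P hσ)]
    simp
  · refine (peu_cob S.hζ (l x)).congr fun s hs => ?_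
    rw [Inv_dd_up S x (ine_le_dec P hs)]
    show (om P s - 1) * l x = l ((chi r s - 1) * x)
    rw [Inv_Dk_chi_sub_one S l hs]
  · rw [Inv_dd_up S x hσ]
    simp

/-- (`Nrm0.sub` with `nrm0_dd`, `dd_tri`, `Nrm0.zero_of_ine`.) -/
theorem Nrm0.cob_of_ine (S : OrdData P ζ r) (h : Nrm0 P ζ r c) {x : k}
    (hx : ∀ s ∈ P.ine, c s 0 1 = (chi r s - 1) * x) : ∀ σ ∈ P.dec, c σ = dd r !![0, x; 0, 0] σ := by
  intro σ hσ
  have hd := h.sub S.hζ (S.nrm0_dd x)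
  have h0 := hd.zero_of_ine S (fun s hs => by
    rw [Pi.sub_apply, Matrix.sub_apply, Inv_dd_up S x (ine_le_dec P hs), hx s hs]
    simp) σ hσ
  exact sub_eq_zero.mp h0

/-- **Injectivity of the invariant modulo coboundaries.** -/
theorem Nrm0.cob_of_Ainv_eq (S : OrdData P ζ r) (h : Nrm0 P ζ r c) (h' : Nrm0 P ζ r c')
    (he : Ainv S.hζ h.toNrm = Ainv S.hζ h'.toNrm) :
    ∃ x : k, ∀ σ ∈ P.dec, c σ - c' σ = dd r !![0, x; 0, 0] σ := by
  have hd := h.sub S.hζ h'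
  obtain ⟨x, hx⟩ := hd.exists_cob_ine S fun l => by
    have h1 := (Ainv_spec S.hζ h.toNrm l).sub S.hζ (Ainv_spec S.hζ h'.toNrm l)
    rw [he, sub_self] at h1
    exact h1.congr fun s _ => by simp
  exact ⟨x, fun σ hσ => hd.cob_of_ine S hx σ hσ⟩

end Fermat.Agent.S56.F.OrdC

end
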