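/-
S56 block (F), F-C COUNT, file 5: THE COUNT  `#(LLord / coboundaries on D) ≤ #H⁰(D, ad⁰) · #k`.
-/
import Fermat.Agent.S56.F.Ord.Cnt.Inv

set_option autoImplicit false

open Fermat.Agent.PT.Local Matrix
open Fermat.Agent.S53 (G M2)
open Fermat.Agent.S56.C (ad rm)
open Fermat.Agent.S56.F.LF (FF)

noncomputable section

namespace Fermat.Agent.S56.F.OrdC

/-- `f|D` is the coboundary of a trace zero matrix. -/
def BdD (P : Plc) {k : Type} [Field k] (r : G →* GL (Fin 2) k) (f : G → M2 k) : Prop :=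
  ∃ X : M2 k, X.trace = 0 ∧ ∀ σ ∈ P.dec, f σ = dd r X σ

/-- abstract covering lemma (choose one element in each non empty fibre of `Λ`). -/
theorem exists_cover {α β : Type} [Finite β] (Sp : α → Prop) (Λ : {a : α // Sp a} → β) (R : α → α → Prop)
    (h : ∀ a a' : {a : α // Sp a}, Λ a = Λ a' → R a a') :
    ∃ T : Finset α, T.card ≤ Nat.card β ∧ ∀ a, Sp a → ∃ t ∈ T, R a t := by
  classical
  have := Fintype.ofFinite β
  let S : Finset β := Finset.univ.filter (fun b => ∃ a, Λ a = b)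
  have hS : ∀ b ∈ S, ∃ a, Λ a = b := fun b hb => (Finset.mem_filter.1 hb).2
  refine ⟨S.attach.image (fun b => ((hS b.1 b.2).choose : α)), ?_, ?_⟩
  · calc _ ≤ S.attach.card := Finset.card_image_le
      _ = S.card := Finset.card_attach
      _ ≤ Fintype.card β := Finset.card_le_univ _
      _ = Nat.card β := by rw [Nat.card_eq_fintype_card]
  · intro a ha
    have hb : Λ ⟨a, ha⟩ ∈ S := Finset.mem_filter.2 ⟨Finset.mem_univ _, ⟨_, rfl⟩⟩
    refine ⟨_, Finset.mem_image.2 ⟨⟨_, hb⟩, Finset.mem_attach _ _, rfl⟩, ?_⟩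
    exact h ⟨a, ha⟩ _ (hS _ hb).choose_spec.symm

variable {P : Plc} {ζ : Qb} {k : Type} [Field k] [Algebra (ZMod P.ℓ) k] {r : G →* GL (Fin 2) k}
  {c c' : G → M2 k}

/-- **Step 1** (the diagonal part).  For `x : k` let `rep x` be a normalised cocycle with `c₁(φ) = x` if there is one (`0` otherwise);
`T := image (fun (x, t) => rep x + t) (univ ×ˢ T0)` (`Finset.card_image_le`, `Finset.card_product`, `Nat.card_eq_fintype_card`).
If `c` is normalised, `x = c φ 0 0`, then `c - rep x` is normalised (`Nrm.sub`) with `c₁(φ) = 0`, hence in `Nrm0` (`Nrm.c1_zero`). -/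
theorem cover_nrm [Finite k] (S : OrdData P ζ r) {φ : GQ} (hφ : IsFrob P P.ℓ φ) (T0 : Finset (G → M2 k))
    (h0 : ∀ c, Nrm0 P ζ r c → ∃ t ∈ T0, BdD P r (c - t)) :
    ∃ T : Finset (G → M2 k), T.card ≤ Nat.card k * T0.card ∧
      ∀ c, Nrm P ζ r c → ∃ t ∈ T, BdD P r (c - t) := by
  classical
  have := Fintype.ofFinite k
  let rep : k → (G → M2 k) := fun x =>
    if h : ∃ c : G → M2 k, Nrm P ζ r c ∧ c φ 0 0 = x then h.choose else 0
  refine ⟨((Finset.univ : Finset k) ×ˢ T0).image (fun p => rep p.1 + p.2), ?_, ?_⟩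
  · refine Finset.card_image_le.trans ?_
    rw [Finset.card_product, Nat.card_eq_fintype_card, Finset.card_univ]
  · intro c hc
    have hex : ∃ c' : G → M2 k, Nrm P ζ r c' ∧ c' φ 0 0 = c φ 0 0 := ⟨c, hc, rfl⟩
    have hrep : rep (c φ 0 0) = hex.choose := dif_pos hex
    have h1 : Nrm P ζ r (rep (c φ 0 0)) := by rw [hrep]; exact hex.choose_spec.1
    have h2 : rep (c φ 0 0) φ 0 0 = c φ 0 0 := by rw [hrep]; exact hex.choose_spec.2
    have h3 : Nrm P ζ r (c - rep (c φ 0 0)) := hc.sub S.hζ h1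
    have h4 : Nrm0 P ζ r (c - rep (c φ 0 0)) :=
      ⟨h3, h3.c1_zero S hφ (by simp [h2])⟩
    obtain ⟨t, ht, hb⟩ := h0 _ h4
    refine ⟨rep (c φ 0 0) + t, Finset.mem_image.2 ⟨(c φ 0 0, t),
      Finset.mem_product.2 ⟨Finset.mem_univ _, ht⟩, rfl⟩, ?_⟩
    rw [← sub_sub]
    exact hb

/-- **Step 2** (`H¹_peu(D, k(χ))` has at most `#k` elements).  `exists_cover` with `β = {A // Phi A = A}` (`card_fix`), `Λ c = ⟨Ainv c, Ainv_fixed⟩`,
`Nrm0.cob_of_Ainv_eq`  (`!![0, x; 0, 0]` has trace `0`). -/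
theorem cover_nrm0 [Finite k] (S : OrdData P ζ r) {φ : GQ} (hφ : IsFrob P P.ℓ φ) :
    ∃ T0 : Finset (G → M2 k), T0.card ≤ Nat.card k ∧ ∀ c, Nrm0 P ζ r c → ∃ t ∈ T0, BdD P r (c - t) := by
  obtain ⟨hfin, hcard⟩ := card_fix (P := P) (chi r φ) (wOf P φ)
  obtain ⟨T, hT, h⟩ := exists_cover (β := {A : W P k // Phi P (chi r φ) (wOf P φ) A = A})
    (Nrm0 P ζ r) (fun c => ⟨Ainv S.hζ c.2.toNrm, Ainv_fixed S c.2 hφ⟩)
    (fun c c' => BdD P r (c - c')) (by
      rintro ⟨c, hc⟩ ⟨c', hc'⟩ he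
      obtain ⟨x, hx⟩ := hc.cob_of_Ainv_eq S hc' (congrArg Subtype.val he)
      exact ⟨!![0, x; 0, 0], by simp [Matrix.trace_fin_two], fun σ hσ => hx σ hσ⟩)
  exact ⟨T, hT.trans hcard, h⟩

/-- **Split case**: `a ↦ !![a, 2 x a; 0, -a]` is an injection `k → H⁰(D, ad⁰)` (`dd_tri`: `(χ - 1) (2 x a) - 2 β a = 0`; `dd_apply`, `sub_eq_zero`;
`Nat.card_le_card_of_injective`, the target is finite). -/
theorem card_le_H0_of_split [Finite k] (S : OrdData P ζ r) {x : k}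
    (hx : ∀ σ ∈ P.dec, bet r σ = (chi r σ - 1) * x) :
    Nat.card k ≤ Nat.card {X : M2 k // X.trace = 0 ∧ ∀ σ ∈ P.dec, ad (r σ) X = X} := by
  refine Nat.card_le_card_of_injective
    (fun a : k => (⟨!![a, 2 * x * a; 0, -a], by simp [Matrix.trace_fin_two], fun σ hσ => ?_⟩ :
      {X : M2 k // X.trace = 0 ∧ ∀ σ ∈ P.dec, ad (r σ) X = X})) ?_
  · have h1 := dd_tri (S.tri σ hσ) a (2 * x * a)
    rw [hx σ hσ, dd_apply] at h1
    have h2 : (chi r σ - 1) * (2 * x * a) - 2 * ((chi r σ - 1) * x) * a = 0 := by ring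
    rw [h2] at h1
    have h3 : (!![0, 0; 0, 0] : M2 k) = 0 := by
      ext i j
      fin_cases i <;> fin_cases j <;> rfl
    rw [h3] at h1
    exact sub_eq_zero.1 h1
  · intro a a' h
    have h1 := congrArg (fun X : {X : M2 k // X.trace = 0 ∧ ∀ σ ∈ P.dec, ad (r σ) X = X} =>
      (X : M2 k) 0 0) h
    simpa using h1

/-- **Non split case**: every element of `Nrm0` is a coboundary.  `g : k → {A // Phi A = A}`, `a ↦ Ainv (S.nrm0_bet a)` is injective [if `g a = g a'`, `a ≠ a'`: `cob_of_Ainv_eq` gives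
`(a - a') β = (χ - 1) x` on `D` (entry `0 1`, `dd_tri` with `x₁ = 0`), contradiction with `hns`], hence bijective (`card_fix`, `Function.Injective.bijective_of_nat_card_le`).
So `Ainv c = Ainv (S.nrm0_bet a)` for some `a`; `cob_of_Ainv_eq`: `c = upC (a β) + dd r !![0, x; 0, 0] = dd r !![-a/2, x; 0, a/2]` on `D` (`dd_tri`, `S.two_ne_zero`). -/
theorem bdD_of_nonsplit [Finite k] (S : OrdData P ζ r) {φ : GQ} (hφ : IsFrob P P.ℓ φ)
    (hns : ¬ ∃ x : k, ∀ σ ∈ P.dec, bet r σ = (chi r σ - 1) * x) :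
    ∀ c, Nrm0 P ζ r c → BdD P r c := by
  intro c hc
  obtain ⟨hfin, hcard⟩ := card_fix (P := P) (k := k) (chi r φ) (wOf P φ)
  let g : k → {A : W P k // Phi P (chi r φ) (wOf P φ) A = A} := fun a =>
    ⟨Ainv S.hζ (S.nrm0_bet a).toNrm, Ainv_fixed S (S.nrm0_bet a) hφ⟩
  have hg : Function.Injective g := by
    intro a a' h
    by_contra hne
    have h1 : Ainv S.hζ (S.nrm0_bet a).toNrm = Ainv S.hζ (S.nrm0_bet a').toNrm :=
      congrArg Subtype.val h
    obtain ⟨x, hx⟩ := (S.nrm0_bet a).cob_of_Ainv_eq S (S.nrm0_bet a') h1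
    apply hns
    refine ⟨x / (a - a'), fun σ hσ => ?_⟩
    have h2 := congrFun (congrFun (hx σ hσ) 0) 1
    have h3 := dd_tri (S.tri σ hσ) 0 x
    rw [neg_zero] at h3
    rw [h3] at h2
    simp only [upC, Matrix.sub_apply, Matrix.of_apply, Matrix.cons_val', Matrix.cons_val_zero,
      Matrix.cons_val_one, Matrix.cons_val_fin_one, mul_zero, sub_zero] at h2
    have h4 : a - a' ≠ 0 := sub_ne_zero.2 hne
    field_simp
    linear_combination h2
  have hbij := hg.bijective_of_nat_card_le hcard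
  obtain ⟨a, ha⟩ := hbij.2 ⟨Ainv S.hζ hc.toNrm, Ainv_fixed S hc hφ⟩
  have h1 : Ainv S.hζ hc.toNrm = Ainv S.hζ (S.nrm0_bet a).toNrm := (congrArg Subtype.val ha).symm
  obtain ⟨x, hx⟩ := hc.cob_of_Ainv_eq S (S.nrm0_bet a) h1
  have h2 := S.two_ne_zero
  refine ⟨!![-a / 2, x; 0, -(-a / 2)], by simp [Matrix.trace_fin_two], fun σ hσ => ?_⟩
  have h3 := dd_tri (S.tri σ hσ) 0 x
  rw [neg_zero] at h3
  have h4 := hx σ hσ
  rw [h3] at h4
  rw [dd_tri (S.tri σ hσ), eq_add_of_sub_eq h4]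
  ext i j
  fin_cases i <;> fin_cases j <;> simp [upC]
  field_simp
  ring

theorem one_le_card_H0 [Finite k] (P : Plc) (r : G →* GL (Fin 2) k) :
    1 ≤ Nat.card {X : M2 k // X.trace = 0 ∧ ∀ σ ∈ P.dec, ad (r σ) X = X} := by
  haveI : Nonempty {X : M2 k // X.trace = 0 ∧ ∀ σ ∈ P.dec, ad (r σ) X = X} :=
    ⟨⟨0, by simp, fun σ _ => B.ad_zero _⟩⟩
  exact Nat.one_le_iff_ne_zero.2 Nat.card_pos.ne'

/-- the count for normalised cocycles. -/
theorem count_nrm [Finite k] (S : OrdData P ζ r) :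
    ∃ T : Finset (G → M2 k),
      T.card ≤ Nat.card {X : M2 k // X.trace = 0 ∧ ∀ σ ∈ P.dec, ad (r σ) X = X} * Nat.card k ∧
      ∀ c, Nrm P ζ r c → ∃ t ∈ T, BdD P r (c - t) := by
  obtain ⟨φ, hφ⟩ := LF.exists_frob_ell P
  by_cases hs : ∃ x : k, ∀ σ ∈ P.dec, bet r σ = (chi r σ - 1) * x
  · obtain ⟨x, hx⟩ := hs
    obtain ⟨T0, hT0, h0⟩ := cover_nrm0 S hφ
    obtain ⟨T, hT, h⟩ := cover_nrm S hφ T0 h0
    refine ⟨T, hT.trans ?_, h⟩
    rw [mul_comm]
    exact Nat.mul_le_mul (hT0.trans (card_le_H0_of_split S hx)) le_rfl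
  · obtain ⟨T, hT, h⟩ := cover_nrm S hφ {0} fun c hc =>
      ⟨0, Finset.mem_singleton_self _, by rw [sub_zero]; exact bdD_of_nonsplit S hφ hs c hc⟩
    refine ⟨T, hT.trans ?_, h⟩
    rw [Finset.card_singleton, mul_one]
    exact Nat.le_mul_of_pos_left _ (one_le_card_H0 P r)

/-- **THE COUNT.** -/
theorem count_LLord [Finite k] (S : OrdData P ζ r) :
    ∃ T : Finset (G → M2 k),
      T.card ≤ Nat.card {X : M2 k // X.trace = 0 ∧ ∀ σ ∈ P.dec, ad (r σ) X = X} * Nat.card k ∧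
      ∀ c, LLord P ζ r c → ∃ t ∈ T, BdD P r (c - t) := by
  obtain ⟨T, hT, h⟩ := count_nrm S
  refine ⟨T, hT, ?_⟩
  rintro c ⟨X, hX, hc⟩
  obtain ⟨t, ht, Y, hY, hYc⟩ := h _ hc
  refine ⟨t, ht, Y - X, by rw [Matrix.trace_sub, hY, hX, sub_zero], fun σ hσ => ?_⟩
  have h1 := hYc σ hσ
  simp only [Pi.sub_apply, Pi.add_apply] at h1 ⊢
  have h2 : dd r (Y - X) σ = dd r Y σ - dd r X σ := by
    rw [sub_eq_add_neg, dd_add, dd_neg]
    simp [sub_eq_add_neg]
  rw [h2, ← h1]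
  abel

end Fermat.Agent.S56.F.OrdC

end
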